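import Fermat.Agent.ModLift.AtP.Wild.Torsion
import Fermat.Agent.MazurPrinciple.FreyPlace

/-!
# A unit moved as far as `ζ - 1`

A torsion point outside the kernel of reduction gives a unit, fixed with the point, which every
element of inertia moving the point moves by no less than `p ^ (-1 / (p - 1))`: at a good place the
abscissa, at a node the quotient of the abscissa from the node by a rational element of its size.
-/

set_option autoImplicit false
set_option linter.style.haveILetI false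
set_option linter.unusedSectionVars false
set_option maxHeartbeats 800000

noncomputable section

open scoped Classical WeierstrassCurve.Affine Pointwise
open WeierstrassCurve WeierstrassCurve.Affine IsLocalRing

namespace FLTAgent.ModLift.Wild

open FLTAgent.LocalEC FLTAgent.LevelMatch FLTAgent.FrobTrace FLTAgent.MazurPrinciple

local notation "QA" => AlgebraicClosure ℚ
local notation "GG" => (AlgebraicClosure ℚ ≃ₐ[ℚ] AlgebraicClosure ℚ)

section Chord

variable {K : Type*} [Field K] {A : ValuationSubring K} {V : WeierstrassCurve.Affine K}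

/-- The abscissa of the difference of two points off the node of the same size and slope. -/
theorem val_chord_node (hN : NodeModel A V) {x y x' y' : K} (he : V.Equation x y)
    (hu : A.valuation V.a₄ < A.valuation x) (hx : A.valuation x < 1)
    (hv : A.valuation x' = A.valuation x) (hr' : y' / x' ∈ A)
    (hs : A.valuation (y' / x' - y / x) < 1) (hne : x ≠ x')
    (hD : 1 < A.valuation (V.addX x x' ((y + y' + V.a₁ * x' + V.a₃) / (x - x')))) :
    A.valuation (V.addX x x' ((y + y' + V.a₁ * x' + V.a₃) / (x - x'))) *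
      A.valuation (x - x') ^ 2 = A.valuation x ^ 2 := by
  have hx0 : (0 : A.ValueGroup) < A.valuation x := hN.u_pos.trans hu
  have hxne : x ≠ 0 := A.valuation.pos_iff.mp hx0
  have hx'ne : x' ≠ 0 := A.valuation.pos_iff.mp (hv.symm ▸ hx0)
  set F := y + y' + V.a₁ * x' + V.a₃ with hF
  set d := x - x' with hd
  set X₃ := V.addX x x' (F / d) with hX₃
  have hd0 : d ≠ 0 := sub_ne_zero.2 hne
  have hy' : y' - y = y' / x' * (x' - x) + (y' / x' - y / x) * x := by field_simp; ring
  have hsmall : A.valuation ((y' / x' - y / x) * x) < A.valuation x := by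
    rw [map_mul]; exact mul_lt_of_lt_one_left hx0 hs
  have hdle : A.valuation d ≤ A.valuation x := A.valuation.map_sub_le le_rfl hv.le
  have hFeq : F = psi V x y + ((y' - y) + V.a₁ * (x' - x)) := by
    rw [hF, hN.psi_eq, hN.a₃_eq]; ring
  have hid : X₃ * d ^ 2 = F ^ 2 + (V.a₁ * F * d - (V.a₂ + x + x') * d ^ 2) := by
    rw [hX₃]; simp only [addX]; field_simp; ring
  have hrest : ∀ c : A.ValueGroup, A.valuation d ≤ c →
      A.valuation (V.a₁ * (x' - x)) ≤ c ∧ A.valuation (y' / x' * (x' - x)) ≤ c := by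
    intro c hc
    rw [map_mul, map_mul, A.valuation.map_sub_swap x' x, ← hd]
    exact ⟨(mul_le_of_le_one_left' (val_le_one hN.mem₁)).trans hc,
      (mul_le_of_le_one_left' (val_le_one hr')).trans hc⟩
  have hsum : A.valuation (V.a₂ + x + x') ≤ 1 :=
    val_le_one (add_mem (add_mem hN.mem₂ (mem_of_val_le_one hx.le))
      (mem_of_val_le_one (hv.le.trans hx.le)))
  have hdlt : A.valuation d < A.valuation x := by
    refine hdle.lt_of_ne fun h => ?_
    have hFle : A.valuation F ≤ A.valuation x := by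
      rw [hFeq]
      refine A.valuation.map_add_le (hN.val_psi he hu hx).le
        (A.valuation.map_add_le ?_ (hrest _ hdle).1)
      rw [hy']
      exact A.valuation.map_add_le (hrest _ hdle).2 hsmall.le
    have hle : A.valuation (X₃ * d ^ 2) ≤ A.valuation x ^ 2 := by
      rw [hid]
      refine A.valuation.map_add_le (by rw [map_pow]; exact pow_le_pow_left₀ zero_le hFle 2)
        (A.valuation.map_sub_le ?_ ?_)
      · rw [map_mul, map_mul, sq]
        exact mul_le_mul' ((mul_le_of_le_one_left' (val_le_one hN.mem₁)).trans hFle) hdle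
      · rw [map_mul, map_pow]
        exact (mul_le_of_le_one_left' hsum).trans (pow_le_pow_left₀ zero_le hdle 2)
    rw [map_mul, map_pow, h] at hle
    exact absurd hle (not_le.2 (lt_mul_of_one_lt_left (pow_pos hx0 2) hD))
  have hFv : A.valuation F = A.valuation x := by
    rw [hFeq, A.valuation.map_add_eq_of_lt_left, hN.val_psi he hu hx]
    rw [hN.val_psi he hu hx]
    refine A.valuation.map_add_lt ?_ ((hrest _ le_rfl).1.trans_lt hdlt)
    rw [hy']
    exact A.valuation.map_add_lt ((hrest _ le_rfl).2.trans_lt hdlt) hsmall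
  have hv2 : A.valuation (F ^ 2) = A.valuation x ^ 2 := by rw [map_pow, hFv]
  rw [← map_pow, ← map_mul, hid, A.valuation.map_add_eq_of_lt_left, hv2]
  rw [hv2]
  refine A.valuation.map_sub_lt ?_ ?_
  · rw [map_mul, map_mul, sq, hFv]
    exact mul_lt_mul' (mul_le_of_le_one_left' (val_le_one hN.mem₁)) hdlt zero_le hx0
  · rw [map_mul, map_pow]
    exact (mul_le_of_le_one_left' hsum).trans_lt (pow_lt_pow_left₀ hdlt zero_le two_ne_zero)

/-- The same for two congruent integral points where `2y + a₁x + a₃` is a unit. -/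
theorem val_chord_smooth (hV : IntCoeff A V) {x y x' y' : K} (hx : x ∈ A) (hy : y ∈ A)
    (hx' : x' ∈ A) (hψ : A.valuation (psi V x y) = 1) (hdx : A.valuation (x - x') < 1)
    (hdy : A.valuation (y' - y) < 1) (hne : x ≠ x') :
    A.valuation (V.addX x x' ((y + y' + V.a₁ * x' + V.a₃) / (x - x'))) *
      A.valuation (x - x') ^ 2 = 1 := by
  set F := y + y' + V.a₁ * x' + V.a₃ with hF
  set d := x - x' with hd
  have hd0 : d ≠ 0 := sub_ne_zero.2 hne
  have hFeq : F = psi V x y + ((y' - y) + V.a₁ * (x' - x)) := by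
    rw [hF, psi]; ring
  have hFv : A.valuation F = 1 := by
    rw [hFeq, A.valuation.map_add_eq_of_lt_left, hψ]
    rw [hψ]
    refine A.valuation.map_add_lt hdy ?_
    rw [map_mul, A.valuation.map_sub_swap]
    exact (mul_le_of_le_one_left' (val_le_one hV.mem₁)).trans_lt hdx
  have hid : V.addX x x' (F / d) * d ^ 2 =
      F ^ 2 + (V.a₁ * F * d - (V.a₂ + x + x') * d ^ 2) := by
    simp only [addX]; field_simp; ring
  rw [← map_pow, ← map_mul, hid, A.valuation.map_add_eq_of_lt_left, map_pow, hFv, one_pow]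
  rw [map_pow, hFv, one_pow]
  refine A.valuation.map_sub_lt ?_ ?_
  · rw [map_mul, map_mul, hFv, mul_one]
    exact (mul_le_of_le_one_left' (val_le_one hV.mem₁)).trans_lt hdx
  · rw [map_mul, map_pow]
    exact (mul_le_of_le_one_left' (val_le_one (add_mem (add_mem hV.mem₂ hx) hx'))).trans_lt
      (pow_lt_one₀ zero_le hdx two_ne_zero)

end Chord

variable {W : WeierstrassCurve ℤ} (hW0 : W.Δ ≠ 0) (hss : W.IsSemistableModel)
  {A : ValuationSubring QA} {p : ℕ} [hp : Fact p.Prime] (hp2 : p ≠ 2) (hA : A.LiesOverPrime p)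

theorem smul_point_zero' (σ : GG) {n : ℕ} {T : (barCurve W).Point} (hT : n • T = 0) :
    n • (σ • T) = 0 := by
  rw [nsmul_galois, hT, galois_zero]

include hW0 hss hp2 hA in
/-- Inertia moves odd torsion inside the kernel of reduction. -/
theorem inE1_sub_smul {σ : GG} (hσ : σ ∈ A.inertiaSubgroupIn ℚ) {T : (barCurve W).Point}
    (hT : p • T = 0) : InE1 A (T - σ • T) := by
  haveI : CharP (ResidueField A) p := FrobTrace.charP_residueField hA
  haveI : IsAlgClosed (ResidueField A) := FrobTrace.isAlgClosed_residueField A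
  set hV := intCoeff_barCurve W A
  have hres : ResidueFix A (σ : QA →+* QA) := residueFix_of_mem_inertia hσ
  rcases T with _ | ⟨x, y, h⟩
  · rw [← Point.zero_def, galois_zero, sub_zero]; exact inE1_zero
  by_cases h0 : InE0 hV (Point.some x y h)
  · obtain ⟨h', e⟩ := smul_bar_some σ h
    rw [e]
    exact hres.sub_inE1_of_inE0 hV h' h0
  by_cases hgood : (p : ℤ) ∣ W.Δ
  · obtain ⟨S⟩ := exists_semiNode hW0 hp.out hgood (hss p hp.out hgood) hA
    have h1 := inE0_smul_sub S hp.out hp2 hA hσ (hp.out.odd_of_ne_two hp2) hT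
    obtain ⟨Q, hQ⟩ := S.pointMap_surjective (σ • Point.some x y h - Point.some x y h)
    have hpQ : p • Q = 0 := S.C.pointMap_injective (by
      rw [map_nsmul, hQ, nsmul_sub, smul_point_zero' σ hT, hT, sub_zero, map_zero])
    rw [← hQ, S.inE0_pointMap] at h1
    rw [← neg_sub, inE1_neg, ← hQ, inE1_pointMap S.C S.u_eq S.r_mem]
    exact inE1_of_inE0_of_nsmul S.node h1 hpQ
  · exact absurd
      (inE0_of_val_disc hV (by rw [Δ_barCurve]; exact val_intCast_eq_one hA hp.out hgood) _) h0

include hp2 hA in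
/-- Turning the chord identity into the movement. -/
theorem not_gt_of_chord {X₃ d : QA} (hd0 : d ≠ 0)
    (hb : A.valuation (p : QA) * A.valuation X₃ ^ ((p - 1) / 2) ≤ 1)
    (hdv : A.valuation X₃ * A.valuation d ^ 2 = 1) :
    ¬ (ratVal hA).GT (1 / ((p : ℚ) - 1)) d := by
  intro hgt
  have hn0 : (p : QA) ≠ 0 := Nat.cast_ne_zero.2 hp.out.ne_zero
  have hple : A.valuation (p : QA) ≤ A.valuation (d ^ (p - 1)) := by
    obtain ⟨j, hj⟩ := hp.out.odd_of_ne_two hp2
    rw [show (p - 1) / 2 = j by omega] at hb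
    calc A.valuation (p : QA)
        = A.valuation (p : QA) * (A.valuation X₃ * A.valuation d ^ 2) ^ j := by
          rw [hdv, one_pow, mul_one]
      _ = (A.valuation (p : QA) * A.valuation X₃ ^ j) * (A.valuation d ^ 2) ^ j := by
          rw [mul_pow, mul_assoc]
      _ ≤ 1 * (A.valuation d ^ 2) ^ j := mul_le_mul_left hb _
      _ = _ := by rw [one_mul, ← pow_mul, map_pow, show p - 1 = 2 * j by omega]
  have hv := v_le_of_val_le hA hn0 (pow_ne_zero _ hd0) hple
  rw [(ratVal hA).v_pow hd0, (ratVal hA).v_p, Nat.cast_sub hp.out.one_le, Nat.cast_one] at hv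
  have hp1' : (0 : ℚ) < (p : ℚ) - 1 := by
    have : (2 : ℚ) ≤ (p : ℚ) := by exact_mod_cast hp.out.two_le
    linarith
  have hlt := hgt.lt (ratVal hA) hd0
  rw [div_lt_iff₀ hp1'] at hlt
  linarith

include hp2 in
theorem nsmul_two_cancel {T : (barCurve W).Point} (hT : p • T = 0) :
    ∃ k : ℕ, k • (2 • T) = T := by
  obtain ⟨j, hj⟩ := hp.out.odd_of_ne_two hp2
  exact ⟨j + 1, by
    rw [← mul_nsmul', show (j + 1) * 2 = 1 + p by omega, add_nsmul, hT, add_zero, one_nsmul]⟩

include hW0 hss hp2 hA in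
/-- The common part: the chord between the point and its conjugate ends in the kernel. -/
theorem exists_chord {x y : QA} {h : (barCurve W).Nonsingular x y}
    (hT : p • Point.some x y h = 0) (h1 : ¬ InE1 A (Point.some x y h)) {σ : GG}
    (hσ : σ ∈ A.inertiaSubgroupIn ℚ) (hmove : σ • Point.some x y h ≠ Point.some x y h) :
    x ≠ σ x ∧ ∃ X₃ : QA,
      X₃ = (barCurve W).addX x (σ x) ((y + σ y + (barCurve W).a₁ * σ x + (barCurve W).a₃) /
        (x - σ x)) ∧
      1 < A.valuation X₃ ∧ A.valuation (p : QA) * A.valuation X₃ ^ ((p - 1) / 2) ≤ 1 := by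
  obtain ⟨h', e⟩ := smul_bar_some σ h
  have hdiff := inE1_sub_smul hW0 hss hp2 hA hσ hT
  rw [e] at hdiff hmove
  have hne : x ≠ σ x := by
    intro he
    rcases (Point.X_eq_iff (h₁ := h') (h₂ := h)).mp he.symm with e2 | e2
    · exact hmove e2
    · rw [e2, sub_neg_eq_add, ← two_nsmul] at hdiff
      obtain ⟨k, hk⟩ := nsmul_two_cancel hp2 hT
      exact h1 (hk ▸ AddSubgroup.nsmul_mem (e1Subgroup (intCoeff_barCurve W A)) hdiff k)
  refine ⟨hne, _, rfl, ?_⟩
  obtain ⟨y₃, h₃, e₃⟩ := sub_some_of_X_ne h h' hne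
  rw [e₃, inE1_some_iff] at hdiff
  refine ⟨not_mem_iff_one_lt_val.mp hdiff, abscissa_bound hW0 hp2 hA hss h₃ hdiff ?_⟩
  rw [← e₃, nsmul_sub, hT, zero_sub, neg_eq_zero, ← e, smul_point_zero' σ hT]

include hW0 hss hp2 hA in
/-- A unit fixed with the point and moved enough by what moves it. -/
theorem exists_unit (hpeu : (p : ℤ) ∣ W.Δ → ∃ j : ℕ, A.valuation (barCurve W).Δ =
      A.valuation ((p : QA) ^ (p * j)))
    {T : (barCurve W).Point} (hT : p • T = 0) (h1 : ¬ InE1 A T) :
    ∃ w : QA, w ≠ 0 ∧ (ratVal hA).v w = 0 ∧ (∀ τ : GG, τ • T = T → τ w = w) ∧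
      ∀ σ ∈ A.inertiaSubgroupIn ℚ, σ • T ≠ T →
        ¬ (ratVal hA).GT (1 / ((p : ℚ) - 1)) (σ w - w) := by
  haveI : CharP (ResidueField A) p := FrobTrace.charP_residueField hA
  haveI : IsAlgClosed (ResidueField A) := FrobTrace.isAlgClosed_residueField A
  set hV := intCoeff_barCurve W A with hVdef
  rcases T with _ | ⟨x, y, h⟩
  · exact absurd trivial h1
  have hx : x ∈ A := by by_contra hx; exact h1 hx
  have hy : y ∈ A := hV.y_mem h.1 hx
  have hfixX : ∀ τ : GG, τ • Point.some x y h = Point.some x y h → τ x = x := fun τ hτ => by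
    obtain ⟨h', e⟩ := smul_bar_some τ h
    rw [e, Point.some.injEq] at hτ
    exact hτ.1
  have hval0 : ∀ {w : QA}, A.valuation w = 1 → w ≠ 0 ∧ (ratVal hA).v w = 0 := fun {w} hw => by
    have hw0 : w ≠ 0 := fun h => by rw [h, map_zero] at hw; exact zero_ne_one hw
    refine ⟨hw0, ?_⟩
    have a := v_le_of_val_le hA hw0 one_ne_zero (by rw [map_one, hw])
    have b := v_le_of_val_le hA one_ne_zero hw0 (by rw [map_one, hw])
    rw [(ratVal hA).v_one] at a b
    exact le_antisymm b a
  by_cases h0 : InE0 hV (Point.some x y h)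
  · -- nonsingular reduction
    obtain ⟨hx', hy', hns⟩ := h0.resolve_left fun h => h hx
    have hψ : A.valuation (psi (barCurve W) x y) = 1 := by
      refine le_antisymm (val_le_one (hV.psi_mem hx hy)) (not_lt.1 fun hlt => h1 ?_)
      have hny : (barCurve W).negY x y ∈ A := hV.y_mem ((equation_neg _ _).mpr h.1) hx
      have hd : InE1 A (Point.some x y h - Point.some x ((barCurve W).negY x y)
          ((nonsingular_neg x y).mpr h)) := by
        refine sub_inE1_of_residue_eq hV (x₁ := ⟨x, hx⟩) (y₁ := ⟨y, hy⟩) (x₂ := ⟨x, hx⟩)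
          (y₂ := ⟨_, hny⟩) h _ rfl ((residue_eq_iff_val_sub_lt_one _ _).mpr ?_) hns
        rwa [show ((⟨y, hy⟩ : A) : QA) - ((⟨_, hny⟩ : A) : QA) = psi (barCurve W) x y by
          simp only [psi, negY]; ring]
      rw [← Point.neg_some h, sub_neg_eq_add, ← two_nsmul] at hd
      obtain ⟨k, hk⟩ := nsmul_two_cancel hp2 hT
      exact hk ▸ AddSubgroup.nsmul_mem (e1Subgroup hV) hd k
    obtain ⟨k, hk⟩ : ∃ k : ℤ, A.valuation (x + (k : QA)) = 1 := by
      rcases eq_or_lt_of_le (val_le_one hx) with h | h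
      · exact ⟨0, by simpa using h⟩
      · exact ⟨1, by rw [Int.cast_one, A.valuation.map_add_eq_of_lt_right (by rwa [map_one]),
          map_one]⟩
    refine ⟨x + (k : QA), (hval0 hk).1, (hval0 hk).2, fun τ hτ => ?_, fun σ hσ hσT => ?_⟩
    · rw [map_add, map_intCast, hfixX τ hτ]
    obtain ⟨hne, X₃, rfl, -, hb⟩ := exists_chord hW0 hss hp2 hA hT h1 hσ hσT
    rw [map_add, map_intCast, add_sub_add_right_eq_sub]
    refine not_gt_of_chord hp2 hA (sub_ne_zero.2 hne.symm) hb ?_
    have hres : ResidueFix A (σ : QA →+* QA) := residueFix_of_mem_inertia hσ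
    rw [A.valuation.map_sub_swap]
    exact val_chord_smooth hV hx hy (hres.map_mem hx) hψ
      (by rw [A.valuation.map_sub_swap]; exact hres _ hx) (hres _ hy) hne
  -- a node
  have hgood : (p : ℤ) ∣ W.Δ := by
    by_contra hgood
    exact h0 (inE0_of_val_disc hV (by rw [Δ_barCurve]; exact val_intCast_eq_one hA hp.out hgood) _)
  obtain ⟨S⟩ := exists_semiNode hW0 hp.out hgood (hss p hp.out hgood) hA
  obtain ⟨j, hj⟩ := hpeu hgood
  set N := S.node
  -- the point on the model
  obtain ⟨x₁, y₁, he, ex, ey⟩ := S.C.exists_preimage h.1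
  have hn₁ : S.model.Nonsingular x₁ y₁ := by
    refine S.C.nonsingular_of_map he ?_
    rw [ex, ey]; exact h
  have eT : S.C.pointMap (Point.some x₁ y₁ hn₁) = Point.some x y h := by
    rw [S.C.pointMap_some, Point.some.injEq]; exact ⟨ex, ey⟩
  have hp₁ : p • Point.some x₁ y₁ hn₁ = 0 := S.C.pointMap_injective (by
    rw [map_nsmul, eT, hT, map_zero])
  have h0₁ : ¬ InE0 N.toIntCoeff (Point.some x₁ y₁ hn₁) := fun h2 =>
    h0 (eT ▸ (S.inE0_pointMap _).mpr h2)
  have hu : A.valuation S.model.a₄ < A.valuation x₁ := by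
    simpa using N.u_lt_xVal (hp.out.odd_of_ne_two hp2) hp₁ h0₁
  have hlt : A.valuation x₁ < 1 := by simpa using N.not_inE0_iff.mp h0₁
  obtain ⟨k, -, -, hk⟩ := N.exists_xVal_pow_eq hp2 hp₁ h0₁
  rw [xVal_some] at hk
  -- the size of `a₄`
  have ha4 : A.valuation S.model.a₄ ^ 2 = A.valuation ((p : QA) ^ (p * j)) := by
    rw [← hj]
    have h1 := S.C.h₁; have h2 := S.C.h₂; have h3 := S.C.h₃; have h4 := S.C.h₄; have h6 := S.C.h₆
    rw [S.u_eq, S.s_eq] at h1 h2 h4
    rw [S.u_eq, N.a₃_eq] at h3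
    rw [S.u_eq, N.a₆_eq] at h6
    have hΔ : (barCurve W).Δ =
        S.model.a₄ ^ 2 * (S.model.b₂ ^ 2 - 64 * S.model.a₄) := by
      have g1 : (barCurve W).a₁ = S.model.a₁ := by linear_combination -h1
      have g2 : (barCurve W).a₂ = S.model.a₂ - 3 * S.C.r := by linear_combination -h2
      have g3 : (barCurve W).a₃ = -(S.C.r * S.model.a₁) - 2 * S.C.t := by
        rw [← g1]; linear_combination -h3
      have g4 : (barCurve W).a₄ = S.model.a₄ - 2 * S.C.r * (barCurve W).a₂ +
          S.C.t * (barCurve W).a₁ - 3 * S.C.r ^ 2 := by linear_combination -h4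
      have g6 : (barCurve W).a₆ = -(S.C.r * (barCurve W).a₄) - S.C.r ^ 2 * (barCurve W).a₂ -
          S.C.r ^ 3 + S.C.t * (barCurve W).a₃ + S.C.t ^ 2 +
          S.C.r * S.C.t * (barCurve W).a₁ := by linear_combination -h6
      simp only [Δ, b₂, b₄, b₆, b₈, g6, g4, g3, g2, g1]
      ring
    have hu64 : A.valuation (64 * S.model.a₄) < A.valuation (S.model.b₂ ^ 2) := by
      rw [map_pow, N.b₂_unit, one_pow, map_mul]
      exact (mul_le_of_le_one_left' (val_le_one (natCast_mem A 64))).trans_lt N.a₄_lt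
    rw [hΔ, map_mul, A.valuation.map_sub_eq_of_lt_left hu64, map_pow, map_pow, N.b₂_unit, one_pow,
      mul_one]
  set c : QA := (p : QA) ^ (j * k) with hc
  have hc0 : c ≠ 0 := pow_ne_zero _ (Nat.cast_ne_zero.2 hp.out.ne_zero)
  have hxv : A.valuation x₁ = A.valuation c := by
    refine (pow_left_inj₀ zero_le zero_le hp.out.ne_zero).mp ?_
    rw [hk, pow_mul, ha4, hc, ← map_pow, ← map_pow, ← pow_mul, ← pow_mul]
    congr 2
    ring
  obtain ⟨c₀, hc₀fix, hc₀⟩ := exists_center S
  have hXv : A.valuation (x - c₀) = A.valuation x₁ := by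
    rw [← ex, S.X_eq]
    exact val_model_abscissa S hc₀ hu
  have hw1 : A.valuation ((x - c₀) / c) = 1 := by
    rw [map_div₀, hXv, hxv, div_self ((Valuation.ne_zero_iff _).2 hc0)]
  refine ⟨(x - c₀) / c, (hval0 hw1).1, (hval0 hw1).2, fun τ hτ => ?_, fun σ hσ hσT => ?_⟩
  · rw [map_div₀, map_sub, hfixX τ hτ, hc₀fix, hc, map_pow, map_natCast]
  obtain ⟨hne, X₃, hX₃, hD, hb⟩ := exists_chord hW0 hss hp2 hA hT h1 hσ hσT
  have hσw : σ ((x - c₀) / c) - (x - c₀) / c = (σ x - x) / c := by
    rw [map_div₀, map_sub, hc₀fix, hc, map_pow, map_natCast]; ring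
  rw [hσw]
  refine not_gt_of_chord hp2 hA (div_ne_zero (sub_ne_zero.2 hne.symm) hc0) hb ?_
  -- the chord on the model
  have hdec := LocalEC.inertia_le_decomposition hσ
  have hfix := residueFix_of_mem_inertia hσ
  set x₂ := σ x₁ + (σ S.C.r - S.C.r) with hx₂
  set y₂ := σ y₁ + (σ S.C.t - S.C.t) with hy₂
  have eX : σ x = x₂ + S.C.r := by rw [← ex, S.X_eq, map_add, hx₂]; ring
  have eY : σ y = y₂ + S.C.t := by rw [← ey, S.Y_eq, map_add, hy₂]; ring
  have ex' : x = x₁ + S.C.r := by rw [← ex, S.X_eq]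
  have ey' : y = y₁ + S.C.t := by rw [← ey, S.Y_eq]
  have hr := S.val_r_sub_le hdec
  have h2 : A.valuation (2 : QA) = 1 := by
    simpa using val_natCast_eq_one hA hp.out (n := 2) fun h =>
      hp2 ((Nat.prime_dvd_prime_iff_eq hp.out Nat.prime_two).mp h)
  have f3 : (barCurve W).a₃ + S.C.r * (barCurve W).a₁ + 2 * S.C.t = 0 := by
    have h3 := S.C.h₃
    rw [S.u_eq, N.a₃_eq] at h3
    linear_combination -h3
  have ht : A.valuation (σ S.C.t - S.C.t) ≤ A.valuation S.model.a₄ := by
    have h3' := congrArg σ f3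
    simp only [map_zero, map_add, map_mul, map_ofNat] at h3'
    rw [show σ (barCurve W).a₃ = (barCurve W).a₃ by simp [WeierstrassCurve.map],
      show σ (barCurve W).a₁ = (barCurve W).a₁ by simp [WeierstrassCurve.map]] at h3'
    have e3 : 2 * (σ S.C.t - S.C.t) = -((barCurve W).a₁ * (σ S.C.r - S.C.r)) := by
      linear_combination h3' - f3
    have e4 := congrArg A.valuation e3
    rw [map_mul, h2, one_mul, Valuation.map_neg, map_mul] at e4
    rw [e4]
    exact (mul_le_of_le_one_left' (val_le_one hV.mem₁)).trans hr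
  have hσx : A.valuation (σ x₁) = A.valuation x₁ := val_map_decomposition hdec x₁
  have hv : A.valuation x₂ = A.valuation x₁ := by
    rw [hx₂, A.valuation.map_add_eq_of_lt_left (by rw [hσx]; exact hr.trans_lt hu), hσx]
  have hx0 : (0 : A.ValueGroup) < A.valuation x₁ := N.u_pos.trans hu
  have hx₁0 : x₁ ≠ 0 := A.valuation.pos_iff.mp hx0
  have hx₂0 : x₂ ≠ 0 := A.valuation.pos_iff.mp (hv.symm ▸ hx0)
  have hr0 : y₁ / x₁ ∈ A := mem_of_val_le_one (by
    rw [map_div₀]; exact div_le_one_of_le₀ (N.val_y_le hn₁.1 hu.le hlt.le) zero_le)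
  have hs : A.valuation (y₂ / x₂ - y₁ / x₁) < 1 := by
    have e5 : y₂ / x₂ - y₁ / x₁ = ((σ S.C.t - S.C.t) - y₁ / x₁ * (σ S.C.r - S.C.r) +
        (σ (y₁ / x₁) - y₁ / x₁) * σ x₁) / x₂ := by
      have hy0 : σ (y₁ / x₁) * σ x₁ = σ y₁ := by rw [← map_mul, div_mul_cancel₀ _ hx₁0]
      rw [eq_div_iff hx₂0, sub_mul, div_mul_cancel₀ _ hx₂0]
      linear_combination hy₂ - (y₁ / x₁) * hx₂ - hy0
    rw [e5, map_div₀, hv, div_lt_one₀ hx0]
    refine A.valuation.map_add_lt (A.valuation.map_sub_lt (ht.trans_lt hu) ?_) ?_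
    · rw [map_mul]
      exact (mul_le_of_le_one_left' (val_le_one hr0)).trans_lt (hr.trans_lt hu)
    · rw [map_mul, hσx]
      exact mul_lt_of_lt_one_left hx0 (hfix _ hr0)
  have hr2 : y₂ / x₂ ∈ A := by
    have := add_mem (mem_of_val_le_one hs.le) hr0
    rwa [sub_add_cancel] at this
  have hne₁ : x₁ ≠ x₂ := fun e => hne (by rw [eX, ex', e])
  have hd : σ x - x = -(x₁ - x₂) := by rw [eX, ex']; ring
  have haddX : X₃ = S.model.addX x₁ x₂
      ((y₁ + y₂ + S.model.a₁ * x₂ + S.model.a₃) / (x₁ - x₂)) + S.C.r := by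
    have g2 : S.model.a₂ = (barCurve W).a₂ + 3 * S.C.r := by
      have := S.C.h₂; rw [S.u_eq, S.s_eq] at this; linear_combination this
    have hFd : (y + σ y + (barCurve W).a₁ * σ x + (barCurve W).a₃) / (x - σ x) =
        (y₁ + y₂ + S.model.a₁ * x₂ + S.model.a₃) / (x₁ - x₂) := by
      rw [S.a₁_eq, N.a₃_eq, eX, eY, ex', ey']
      congr 1
      · linear_combination f3
      · ring
    rw [hX₃, hFd]
    simp only [addX]
    rw [g2, S.a₁_eq, eX, ex']
    ring
  set D := S.model.addX x₁ x₂ ((y₁ + y₂ + S.model.a₁ * x₂ + S.model.a₃) / (x₁ - x₂))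
  have hDv : A.valuation X₃ = A.valuation D := by
    have h : D ∉ A := fun hDA => not_le.2 hD (val_le_one (haddX ▸ add_mem hDA S.r_mem))
    rw [haddX]
    exact A.valuation.map_add_eq_of_lt_left
      ((val_le_one S.r_mem).trans_lt (not_mem_iff_one_lt_val.mp h))
  have hkey := val_chord_node N hn₁.1 hu hlt hv hr2 hs hne₁ (hDv ▸ hD)
  rw [hd, map_div₀, Valuation.map_neg, hDv, div_pow, ← mul_div_assoc, hkey, hxv, div_self]
  exact pow_ne_zero _ ((Valuation.ne_zero_iff _).2 hc0)

end FLTAgent.ModLift.Wild
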