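import Fermat.Agent.ModLift.AtP.Wild.Inertia
import Fermat.Agent.ModLift.AtP.Wild.Place
import Fermat.Agent.ModLift.AtP.Interface

/-!
# Wild data of a peu ramifiée torsion module

When inertia has an element of order `p` on the torsion the kernel of reduction is a line with
trivial quotient, and a Kummer element and a unit from a point off it give the smallest jump.
-/

set_option autoImplicit false
set_option linter.style.haveILetI false
set_option linter.unusedSectionVars false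
set_option maxHeartbeats 800000

noncomputable section

open scoped Classical WeierstrassCurve.Affine
open WeierstrassCurve WeierstrassCurve.Affine

namespace FLTAgent.ModLift.Wild

open FLTAgent.LocalEC FLTAgent.Reducible FLTAgent.MazurPrinciple FLTAgent.FrobTrace
open FLTAgent.LevelMatch (smul_bar_some)

local notation "QA" => AlgebraicClosure ℚ
local notation "GG" => (AlgebraicClosure ℚ ≃ₐ[ℚ] AlgebraicClosure ℚ)

variable {W : WeierstrassCurve ℤ} (hW0 : W.Δ ≠ 0) (hss : W.IsSemistableModel) {p : ℕ}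
  [hp : Fact p.Prime] (hp2 : p ≠ 2) {A : ValuationSubring QA} (hA : A.LiesOverPrime p)

theorem coe_zmod_smul (c : ZMod p) (x : Tors W p) :
    ((c • x : Tors W p) : (barCurve W).Point) = c.val • (x : (barCurve W).Point) := by
  conv_lhs => rw [← ZMod.natCast_zmod_val c, Nat.cast_smul_eq_nsmul]
  exact map_nsmul (Submodule.subtype _).toAddMonoidHom c.val x

theorem nsmul_coe (x : Tors W p) : p • (x : (barCurve W).Point) = 0 := by
  rw [← natCast_zsmul]
  exact (Submodule.mem_torsionBy_iff _ _).1 x.2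

theorem inE1_smul {x : Tors W p} (h : InE1 A (x : (barCurve W).Point)) (c : ZMod p) :
    InE1 A ((c • x : Tors W p) : (barCurve W).Point) := by
  rw [coe_zmod_smul]
  exact AddSubgroup.nsmul_mem (e1Subgroup (intCoeff_barCurve W A)) h _

include hW0 hss hp2 hA in
theorem inE1_smul_sub {σ : GG} (hσ : σ ∈ A.inertiaSubgroupIn ℚ) (x : Tors W p) :
    InE1 A ((σ • x - x : Tors W p) : (barCurve W).Point) := by
  show InE1 A (σ • (x : (barCurve W).Point) - (x : (barCurve W).Point))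
  rw [← neg_sub, inE1_neg]
  exact inE1_sub_smul hW0 hss hp2 hA hσ (nsmul_coe x)

include hW0 hss hp2 hA in
/-- A stable line inside the kernel of reduction is not met by all of the torsion there. -/
theorem exists_not_inE1 {R T : Tors W p} (hR : R ≠ 0) (hT : ∀ a : ZMod p, a • R ≠ T)
    (hR1 : InE1 A (R : (barCurve W).Point))
    (hline : ∀ τ ∈ A.inertiaSubgroupIn ℚ, ∃ a : ZMod p, τ • R = a • R) :
    ¬ InE1 A (T : (barCurve W).Point) := by
  intro hT1
  obtain ⟨X, hX, hprod⟩ := torsion_product hW0 hp2 hA hss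
  set S : Finset QA :=
    (Finset.univ.filter fun c : ZMod p => c ≠ 0).image
      fun c => coordX ((c • R : Tors W p) : (barCurve W).Point) with hS
  have hsome : ∀ z : Tors W p, z ≠ 0 → InE1 A (z : (barCurve W).Point) →
      coordX (z : (barCurve W).Point) ∈ X := by
    intro z hz hz1
    obtain ⟨_ | ⟨x, y, h⟩, hzmem⟩ := z
    · exact absurd (Subtype.ext rfl) hz
    · exact (hX _).2 ⟨inE1_some_iff.1 hz1, y, h,
        nsmul_coe (⟨Point.some x y h, hzmem⟩ : Tors W p)⟩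
  have hSX : S ⊆ X := by
    intro r hr
    obtain ⟨c, hc, rfl⟩ := Finset.mem_image.1 hr
    exact hsome _ (smul_ne_zero (Finset.mem_filter.1 hc).2 hR) (inE1_smul hR1 c)
  have hT0 : T ≠ 0 := fun h => hT 0 (by rw [zero_smul, h])
  set r := coordX (T : (barCurve W).Point) with hr
  have hrX : r ∈ X := hsome T hT0 hT1
  have hrS : r ∉ S := by
    intro h
    obtain ⟨c, hc, e⟩ := Finset.mem_image.1 h
    rw [hr] at e
    have key : ∀ P Q : (barCurve W).Point, P ≠ 0 → Q ≠ 0 → coordX P = coordX Q →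
        P = Q ∨ P = -Q := by
      rintro (_ | ⟨x, y, h⟩) (_ | ⟨x', y', h'⟩) hP hQ e
      · exact absurd rfl hP
      · exact absurd rfl hP
      · exact absurd rfl hQ
      · exact Point.X_eq_iff.mp e
    rcases key _ _ (fun h => smul_ne_zero (Finset.mem_filter.1 hc).2 hR (Subtype.ext h))
      (fun h => hT0 (Subtype.ext h)) e with h' | h'
    · exact hT c (Subtype.ext h')
    · exact hT (-c) (by rw [neg_smul]; exact neg_eq_iff_eq_neg.2 (Subtype.ext h'))
  have hbig : ∀ x ∈ X, 1 < A.valuation x := fun x hx => not_mem_iff_one_lt_val.mp ((hX x).1 hx).1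
  have hS0 : S.Nonempty :=
    ⟨_, Finset.mem_image_of_mem _ (Finset.mem_filter.2 ⟨Finset.mem_univ (1 : ZMod p), one_ne_zero⟩)⟩
  have hfix : ∀ τ ∈ A.inertiaSubgroupIn ℚ, τ (∏ x ∈ S, x) = ∏ x ∈ S, x := by
    intro τ hτ
    obtain ⟨a, ha⟩ := hline τ hτ
    have ha0 : a ≠ 0 := fun h => hR (by rwa [h, zero_smul, smul_eq_zero_iff_eq] at ha)
    have hX' : ∀ P : (barCurve W).Point, coordX (τ • P) = τ (coordX P) := by
      rintro (_ | ⟨x, y, h⟩)
      · exact (map_zero τ).symm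
      · rfl
    have hmap : S.image τ = S := by
      rw [hS, Finset.image_image]
      refine Finset.eq_of_subset_of_card_le ?_ ?_
      · intro y hy
        obtain ⟨c, hc, rfl⟩ := Finset.mem_image.1 hy
        refine Finset.mem_image.2 ⟨c * a, Finset.mem_filter.2 ⟨Finset.mem_univ _,
          mul_ne_zero (Finset.mem_filter.1 hc).2 ha0⟩, ?_⟩
        show coordX (((c * a) • R : Tors W p) : (barCurve W).Point) = τ (coordX _)
        rw [← hX', mul_smul, ← ha, ← smul_comm τ c R]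
        rfl
      · rw [← Finset.image_image, Finset.card_image_of_injective _ τ.injective]
    conv_rhs => rw [← hmap]
    rw [map_prod, Finset.prod_image τ.injective.injOn]
  obtain ⟨z, hz⟩ := Mazur.exists_zpow_valuation A hp.out hA
    (Finset.prod_ne_zero_iff.2 fun x hx h => by
      simpa [h] using hbig x (hSX hx)) hfix
  have hvp0 : (0 : A.ValueGroup) < A.valuation (p : QA) :=
    A.valuation.pos_iff.2 (Nat.cast_ne_zero.2 hp.out.ne_zero)
  have hvp1 : A.valuation (p : QA) ≤ 1 := val_le_one (natCast_mem A p)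
  have hz1 : z ≤ -1 := by
    by_contra hz'
    have h1 : A.valuation (∏ x ∈ S, x) ≤ 1 := by
      rw [hz]
      calc A.valuation (p : QA) ^ z ≤ A.valuation (p : QA) ^ (0 : ℤ) :=
            zpow_right_anti₀ hvp0 hvp1 (by omega)
        _ = 1 := zpow_zero _
    obtain ⟨x₀, hx₀⟩ := hS0
    rw [map_prod, ← Finset.mul_prod_erase S _ hx₀] at h1
    exact not_lt.2 h1 (lt_of_lt_of_le (hbig x₀ (hSX hx₀)) (le_mul_of_one_le_right' (Finset.one_le_prod
      fun x hx => (hbig x (hSX (Finset.mem_of_mem_erase hx))).le)))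
  have hge : 1 ≤ A.valuation (p : QA) * ∏ x ∈ S, A.valuation x := by
    rw [← map_prod, hz]
    calc (1 : A.ValueGroup) = A.valuation (p : QA) * A.valuation (p : QA) ^ (-1 : ℤ) := by
          rw [zpow_neg_one, mul_inv_cancel₀ hvp0.ne']
      _ ≤ _ := mul_le_mul_right (zpow_right_anti₀ hvp0 hvp1 hz1) _
  have hlt : (1 : A.ValueGroup) < A.valuation (p : QA) * ∏ x ∈ X, A.valuation x := by
    rw [← Finset.prod_sdiff hSX, ← Finset.mul_prod_erase (X \ S) _
      (Finset.mem_sdiff.2 ⟨hrX, hrS⟩), ← mul_assoc, mul_comm _ (∏ x ∈ S, A.valuation x),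
      ← mul_assoc, ← mul_assoc, mul_comm (∏ x ∈ S, A.valuation x) (A.valuation (p : QA))]
    calc (1 : A.ValueGroup) < A.valuation r := hbig r hrX
      _ ≤ A.valuation (p : QA) * (∏ x ∈ S, A.valuation x) * A.valuation r :=
          le_mul_of_one_le_left' hge
      _ ≤ _ := le_mul_of_one_le_right' (Finset.one_le_prod fun x hx =>
          (hbig x (Finset.mem_sdiff.1 (Finset.mem_of_mem_erase hx)).1).le)
  rw [hprod] at hlt
  exact lt_irrefl _ hlt

include hW0 in
theorem finrank_tors : Module.finrank (ZMod p) (Tors W p) = 2 :=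
  (LevelMatch.resW W hW0 p).finrank_eq

include hW0 in
/-- In a triangular basis with trivial quotient the character on the line is cyclotomic. -/
theorem smul_eq_omega {R T : Tors W p} (hR : R ≠ 0) (hT : ∀ a : ZMod p, a • R ≠ T) {τ : GG}
    {a c : ZMod p} (ha : τ • R = a • R) (hc : τ • T = T + c • R) :
    τ • R = (omegaChar p τ : ZMod p) • R := by
  have hli : LinearIndependent (ZMod p) ![R, T] := (LinearIndependent.pair_iff' hR).2 hT
  let b := basisOfLinearIndependentOfCardEqFinrank hli (by simp [finrank_tors hW0])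
  have hb : ⇑b = ![R, T] := coe_basisOfLinearIndependentOfCardEqFinrank hli _
  set f := Point.galoisRepModuleEnd (S := ℚ) (K := QA) (W.map (Int.castRingHom ℚ)) p τ
  have h0 : f (b 0) = a • b 0 := by rw [hb]; exact ha
  have h1 : f (b 1) = c • b 0 + b 1 := by rw [hb]; exact hc.trans (add_comm _ _)
  have hm : LinearMap.toMatrix b b f = !![a, c; 0, 1] := by
    ext i j
    rw [LinearMap.toMatrix_apply]
    fin_cases j <;> fin_cases i <;> simp [h0, h1, Finsupp.single_apply]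
  have hd := det_eq_omega hW0 (p := p) τ
  rw [← LinearMap.det_toMatrix b, hm, Matrix.det_fin_two_of, mul_one, mul_zero, sub_zero] at hd
  rw [← hd, ha]

include hW0 hss hp2 hA in
/-- The case of an element of order `p`. -/
theorem wildData_of_order (h3 : 3 ≤ p)
    (hpeu : (p : ℤ) ∣ W.Δ → ∃ j : ℕ, A.valuation (barCurve W).Δ =
      A.valuation ((p : QA) ^ (p * j)))
    {ζ : QA} (hζ : IsPrimitiveRoot ζ p) {σ₀ : GG} (hσ : σ₀ ∈ A.inertiaSubgroupIn ℚ)
    (hσG : σ₀ ∉ fixer (Tors W p)) (hσp' : σ₀ ^ p ∈ fixer (Tors W p)) :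
    WildData hA ζ (A.inertiaSubgroupIn ℚ ⊓ fixer (Tors W p)) σ₀ := by
  haveI : NeZero p := ⟨hp.out.ne_zero⟩
  have hV := finrank_tors hW0 (p := p)
  obtain ⟨R, T₀, hR, hT₀, hσR, hσT₀⟩ := exists_unipotent hV
    (σ := σ₀) (by by_contra h; push Not at h; exact hσG h) hσp'
  have hline : ∀ τ ∈ A.inertiaSubgroupIn ℚ, ∃ a : ZMod p, τ • R = a • R := fun τ hτ => by
    obtain ⟨k, hk⟩ := commutator_pow hW0 hA hσ hτ (W := W) (p := p)
    exact stable_line hV hR hT₀ hσR hσT₀ hk
  have hR1 : InE1 A (R : (barCurve W).Point) := by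
    have h := inE1_smul_sub hW0 hss hp2 hA hσ T₀
    rwa [show σ₀ • T₀ - T₀ = R by rw [hσT₀, add_sub_cancel_left]] at h
  have hT1 : ¬ InE1 A (T₀ : (barCurve W).Point) :=
    exists_not_inE1 hW0 hss hp2 hA hR hT₀ hR1 hline
  have hker : ∀ x : Tors W p, InE1 A (x : (barCurve W).Point) → ∃ a : ZMod p, x = a • R := by
    intro x hx
    obtain ⟨a, b, rfl⟩ := exists_coords hV hR hT₀ x
    refine ⟨a, ?_⟩
    rcases eq_or_ne b 0 with rfl | hb
    · rw [zero_smul, add_zero]
    refine absurd ?_ hT1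
    have h2 : InE1 A (((a • R + b • T₀) - a • R : Tors W p) : (barCurve W).Point) :=
      (e1Subgroup (intCoeff_barCurve W A)).sub_mem hx (inE1_smul hR1 a)
    rw [add_sub_cancel_left] at h2
    have h3 := inE1_smul h2 b⁻¹
    rwa [smul_smul, inv_mul_cancel₀ hb, one_smul] at h3
  let I := A.inertiaSubgroupIn ℚ
  let G : Subgroup GG := I ⊓ fixer (Tors W p)
  have hIU : ∀ τ ∈ I, τ ∈ borel p R T₀ := by
    intro τ hτ
    obtain ⟨c, hc⟩ := hker _ (inE1_smul_sub hW0 hss hp2 hA hτ T₀)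
    obtain ⟨a, ha⟩ := hline τ hτ
    have hc' : τ • T₀ = T₀ + c • R := by rw [← hc, add_sub_cancel]
    exact ⟨smul_eq_omega hW0 hR hT₀ ha hc', c, hc'⟩
  have hfixer : ∀ τ : GG, τ • R = R → τ • T₀ = T₀ → τ ∈ fixer (Tors W p) := by
    intro τ hτR hτT x
    obtain ⟨a, b, rfl⟩ := exists_coords hV hR hT₀ x
    rw [smul_add, smul_comm τ a R, smul_comm τ b T₀, hτR, hτT]
  have hω1 : ∀ τ : GG, τ ζ = ζ → (omegaChar p τ : ZMod p) = 1 := fun τ h => by
    rw [omegaChar_eq_one_of_fix p hζ h, Units.val_one]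
  have hpow : ∀ a b : ℕ, (a : ZMod p) = b → ζ ^ a = ζ ^ b := fun a b h => by
    rw [pow_eq_pow_mod a hζ.pow_eq_one, (ZMod.natCast_eq_natCast_iff' a b p).1 h,
      ← pow_eq_pow_mod b hζ.pow_eq_one]
  have hGζ : ∀ τ ∈ G, τ ζ = ζ := fun τ hτ => fix_zeta_of_omega hζ (omega_eq_one hW0 hτ.2)
  have hσζ : σ₀ ζ = ζ := by
    refine fix_zeta_of_omega hζ (Units.ext ?_)
    have h := (hIU σ₀ hσ).1
    rw [hσR] at h
    rw [Units.val_one]
    exact smul_left_injective (ZMod p) hR (by simpa only [one_smul] using h.symm)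
  have hn : ∀ σ ∈ I, ∀ τ ∈ G, σ⁻¹ * τ * σ ∈ G := fun σ hσ τ hτ =>
    ⟨I.mul_mem (I.mul_mem (I.inv_mem hσ) hτ.1) hσ, fun x => by
      rw [mul_smul, mul_smul, hτ.2, inv_smul_smul]⟩
  have hfR : ∀ τ ∈ I, τ ζ = ζ → τ • R = R := fun τ hτ h => by
    rw [(hIU τ hτ).1, hω1 τ h, one_smul]
  have hσ1 : shift p R T₀ σ₀ = 1 := shift_eq hR (by rw [hσT₀, one_smul])
  have hpows : ∀ n : ℕ, (σ₀ ^ n) • R = R ∧ (σ₀ ^ n) • T₀ = T₀ + (n : ZMod p) • R := by
    intro n
    induction n with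
    | zero =>
      refine ⟨one_smul _ R, ?_⟩
      rw [pow_zero, one_smul, Nat.cast_zero, zero_smul, add_zero]
    | succ n ih =>
      refine ⟨by rw [pow_succ, mul_smul, hσR, ih.1], ?_⟩
      rw [pow_succ, mul_smul, hσT₀, smul_add, ih.2, ih.1, Nat.cast_succ, add_smul, one_smul,
        add_assoc]
  have hgen : ∀ τ ∈ I, τ ζ = ζ → ∃ j : ℕ, (σ₀ ^ j)⁻¹ * τ ∈ G := by
    intro τ hτ hτζ
    refine ⟨(shift p R T₀ τ).val, I.mul_mem (I.inv_mem (I.pow_mem hσ _)) hτ,
      hfixer _ ?_ ?_⟩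
    · rw [mul_smul, hfR τ hτ hτζ, inv_smul_eq_iff, (hpows _).1]
    · rw [mul_smul, inv_smul_eq_iff, shift_spec hR (hIU _ hτ), (hpows _).2,
        ZMod.natCast_zmod_val]
  -- the Kummer element
  let H : Subgroup GG := fixer (Tors W p) ⊓ (omegaChar p).ker
  obtain ⟨L, hL, hLfix⟩ := exists_level hW0 (p := p)
  haveI := hL
  have hHopen : IsOpen (H : Set GG) :=
    (Subgroup.isOpen_mono hLfix L.fixingSubgroup_isOpen).inter (isOpen_ker_omegaChar p)
  have hHU : H ≤ borel p R T₀ := fun τ hτ =>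
    ⟨by rw [hτ.1 R, MonoidHom.mem_ker.1 hτ.2, Units.val_one, one_smul],
      0, by rw [hτ.1 T₀, zero_smul, add_zero]⟩
  obtain ⟨θ, hθ0, hθ⟩ := Mazur.exists_kummer (borel p R T₀) H hHopen hHU
    (fun τ => ζ ^ (shift p R T₀ τ).val) (fun τ _ => pow_ne_zero _ (hζ.ne_zero hp.out.ne_zero))
    (fun σ hσ' τ hτ => by
      rw [shift_mul hR hσ' hτ, map_pow, map_eq_pow_cycloExp p σ hζ.pow_eq_one, ← pow_mul,
        ← pow_add]
      refine hpow _ _ ?_
      rw [ZMod.natCast_zmod_val, Nat.cast_add, Nat.cast_mul, ZMod.natCast_zmod_val,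
        ZMod.natCast_zmod_val, omegaChar_eq])
    (fun τ hτ => by
      rw [shift_eq hR (c := 0) (by rw [hτ.1 T₀, zero_smul, add_zero]), ZMod.val_zero, pow_zero])
  have hθG : ∀ τ ∈ G, τ θ = θ := fun τ hτ => by
    rw [hθ τ (hIU τ hτ.1), shift_eq hR (c := 0) (by rw [hτ.2 T₀, zero_smul, add_zero]),
      ZMod.val_zero, pow_zero, one_mul]
  have hθp : ∀ τ ∈ I, τ (θ ^ p) = θ ^ p := fun τ hτ => by
    rw [map_pow, hθ τ (hIU τ hτ), mul_pow, ← pow_mul, mul_comm _ p, pow_mul, hζ.pow_eq_one,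
      one_pow, one_mul]
  obtain ⟨w, hw0, hwv, hwT, hwσ⟩ :=
    exists_unit hW0 hss hp2 hA hpeu (nsmul_coe T₀) hT1
  have hσθ : σ₀ θ = ζ * θ := by
    rw [hθ σ₀ (hIU _ hσ), hσ1, ZMod.val_one p, pow_one]
  exact wildData_wild hA h3 hζ inf_le_left hn hGζ hσ hσζ ⟨I.pow_mem hσ _, hσp'⟩ hgen
    hθ0 hθG hθp hζ hσθ hw0 hwv
    (fun τ hτ => hwT τ (congrArg Subtype.val (hτ.2 T₀)))
    (hwσ σ₀ hσ fun h => hR (by
      have h' : σ₀ • T₀ = T₀ := Subtype.ext h
      rwa [hσT₀, add_eq_left] at h'))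

end FLTAgent.ModLift.Wild

namespace FLTAgent.ModLift

open FLTAgent.MazurPrinciple FLTAgent.Reducible FLTAgent.LocalEC FLTAgent.FrobTrace

local notation "QA" => AlgebraicClosure ℚ
local notation "GG" => (AlgebraicClosure ℚ ≃ₐ[ℚ] AlgebraicClosure ℚ)

/-- The field of the `p`-torsion of a semistable curve with `p ∣ v_p(Δ)` has the ramification of
wild data. -/
theorem exists_wildData (p : ℕ) [hp : Fact p.Prime] (h35 : p = 3 ∨ p = 5)
    (W : WeierstrassCurve ℤ) (hΔ : W.Δ ≠ 0) (hss : W.IsSemistableModel)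
    (hpeu : (W.map (Int.castRingHom ℚ)).IsPeuRamifieeAt p p)
    (A : ValuationSubring QA) (hA : A.LiesOverPrime p) {ζ : QA} (hζ : IsPrimitiveRoot ζ p) :
    ∃ (G : Subgroup GG) (σ₀ : GG), WildData hA ζ G σ₀ ∧
      ∀ τ ∈ G, (LevelMatch.resW W hΔ p).ρ τ = LinearMap.id := by
  classical
  have hp2 : p ≠ 2 := by omega
  have hpeu' : (p : ℤ) ∣ W.Δ → ∃ j : ℕ, A.valuation (barCurve W).Δ =
      A.valuation ((p : QA) ^ (p * j)) := by
    intro _
    rw [WeierstrassCurve.IsPeuRamifieeAt, WeierstrassCurve.map_Δ,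
      show (Int.castRingHom ℚ) W.Δ = ((W.Δ : ℤ) : ℚ) from rfl, padicValRat.of_int,
      Int.natCast_dvd_natCast] at hpeu
    obtain ⟨j, hj⟩ := hpeu
    obtain ⟨u, hu⟩ := padicValInt_dvd (p := p) W.Δ
    have hu' : ¬ (p : ℤ) ∣ u := by
      rintro ⟨v, rfl⟩
      have h := (padicValInt_dvd_iff (p := p) (padicValInt p W.Δ + 1) W.Δ).1
        ⟨v, hu.trans (by rw [pow_succ]; ring)⟩
      rcases h with h | h
      · exact hΔ h
      · omega
    refine ⟨j, ?_⟩
    rw [Δ_barCurve, hu, hj]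
    push_cast
    rw [map_mul, val_intCast_eq_one hA hp.out hu', mul_one]
  by_cases hno : ∀ σ ∈ A.inertiaSubgroupIn ℚ,
      σ ^ p ∈ fixer (Wild.Tors W p) → σ ∈ fixer (Wild.Tors W p)
  · exact ⟨_, 1, Wild.wildData_of_coprime hΔ hA hζ hno, fun τ hτ => LinearMap.ext fun x => hτ.2 x⟩
  · push Not at hno
    obtain ⟨σ₀, hσ, hσp, hσG⟩ := hno
    exact ⟨_, σ₀, Wild.wildData_of_order hΔ hss hp2 hA (by omega) hpeu' hζ hσ hσG hσp,
      fun τ hτ => LinearMap.ext fun x => hτ.2 x⟩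

/-- The ramification data exists for a semistable peu ramifiée torsion module. -/
theorem targetWildData : TargetWildData :=
  fun p _ h35 W hΔ hss _ hpeu A hA _ hζ =>
    exists_wildData p h35 W hΔ hss hpeu A hA hζ

end FLTAgent.ModLift
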