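import Fermat.Agent.ModLift.AtP.Wild.Linear
import Fermat.Agent.FlatLocal.Groups
import Fermat.Agent.MazurPrinciple.FreyWild
import Fermat.Agent.FrobTrace.Det

/-!
# The fixer of the torsion inside inertia

The fixer fixes `ζ`, a commutator of inertia elements is of `p`-power order on the torsion, and
without elements of order `p` the field cut out is tame.
-/

set_option autoImplicit false
set_option linter.style.haveILetI false
set_option linter.unusedSectionVars false

noncomputable section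

open scoped WeierstrassCurve.Affine
open WeierstrassCurve WeierstrassCurve.Affine

namespace FLTAgent.ModLift.Wild

open FLTAgent.LocalEC FLTAgent.Reducible FLTAgent.MazurPrinciple FLTAgent.FrobTrace

local notation "QA" => AlgebraicClosure ℚ
local notation "GG" => (AlgebraicClosure ℚ ≃ₐ[ℚ] AlgebraicClosure ℚ)

/-- The `p`-torsion over `ℚ̄`. -/
abbrev Tors (W : WeierstrassCurve ℤ) (p : ℕ) : Type :=
  Submodule.torsionBy ℤ ((W.map (Int.castRingHom ℚ))⁄(AlgebraicClosure ℚ)).Point p

variable {W : WeierstrassCurve ℤ} (hW0 : W.Δ ≠ 0) {p : ℕ} [hp : Fact p.Prime]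
  {A : ValuationSubring QA} (hA : A.LiesOverPrime p)

include hW0 in
theorem isElliptic_rat : (W.map (Int.castRingHom ℚ)).IsElliptic :=
  ⟨by rw [WeierstrassCurve.map_Δ]; exact isUnit_iff_ne_zero.mpr (by simpa using hW0)⟩

include hW0 in
theorem finite_tors : Finite (Tors W p) := by
  haveI := isElliptic_rat hW0
  exact FLTAgent.Torsion.finite_torsionBy_rat _ hp.out.ne_zero

include hW0 in
theorem exists_level : ∃ L : IntermediateField ℚ QA, FiniteDimensional ℚ L ∧
    L.fixingSubgroup ≤ fixer (Tors W p) := by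
  haveI := finite_tors hW0 (p := p)
  haveI : Algebra.IsAlgebraic ℚ QA := AlgebraicClosure.isAlgebraic ℚ
  obtain ⟨L, hL, h⟩ := FLTAgent.Torsion.exists_finite_level_torsionBy
    (S := ℚ) (W := W.map (Int.castRingHom ℚ)) (K := QA) (n := p)
  exact ⟨L, hL, fun σ hσ => h σ ((IntermediateField.mem_fixingSubgroup_iff _ _).1 hσ)⟩

include hW0 in
/-- The determinant on the torsion is the cyclotomic character. -/
theorem det_eq_omega (σ : GG) :
    LinearMap.det (Point.galoisRepModuleEnd (S := ℚ) (K := QA) (W.map (Int.castRingHom ℚ)) p σ) =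
      (omegaChar p σ : ZMod p) := by
  haveI : NeZero p := ⟨hp.out.ne_zero⟩
  exact FrobTrace.det_eq_cyclotomic W hW0 (ExtCitation.card_rootsOfUnity_eq_self p) σ

include hW0 in
theorem omega_eq_one {σ : GG} (hσ : σ ∈ fixer (Tors W p)) : omegaChar p σ = 1 := by
  refine Units.ext ?_
  rw [← det_eq_omega hW0, show Point.galoisRepModuleEnd (S := ℚ) (K := QA)
      (W.map (Int.castRingHom ℚ)) p σ = LinearMap.id from LinearMap.ext fun x => hσ x,
    LinearMap.det_id, Units.val_one]

include hp in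
theorem fix_zeta_of_omega {ζ : QA} (hζ : IsPrimitiveRoot ζ p) {σ : GG}
    (h : omegaChar p σ = 1) : σ ζ = ζ := by
  haveI : NeZero p := ⟨hp.out.ne_zero⟩
  have h1 : (ExtCitation.cycloExp p σ : ZMod p) = ((1 : ℕ) : ZMod p) := by
    rw [← omegaChar_eq, h, Units.val_one, Nat.cast_one]
  rw [map_eq_pow_cycloExp p σ hζ.pow_eq_one, pow_eq_pow_mod _ hζ.pow_eq_one,
    (ZMod.natCast_eq_natCast_iff' _ 1 p).1 h1, Nat.mod_eq_of_lt hp.out.one_lt, pow_one]

include hW0 hA in
/-- A commutator of elements of inertia has `p`-power order on the torsion. -/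
theorem commutator_pow {σ τ : GG} (hσ : σ ∈ A.inertiaSubgroupIn ℚ)
    (hτ : τ ∈ A.inertiaSubgroupIn ℚ) :
    ∃ k : ℕ, ∀ x : Tors W p, (τ * σ * τ⁻¹ * σ⁻¹) ^ p ^ k • x = x := by
  obtain ⟨L, hL, hfix⟩ := exists_level hW0 (p := p)
  haveI := hL
  obtain ⟨k, hk⟩ := (FlatLocal.isWild_commutator (P := A)
    (σ := ⟨τ, Places.inertia_le_decomposition A hτ⟩)
    (τ := ⟨σ, Places.inertia_le_decomposition A hσ⟩) hτ hσ).exists_pow_mem hA L
  exact ⟨k, hfix hk⟩

include hW0 hA in
/-- Without elements of order `p` the field cut out is tame. -/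
theorem wildData_of_coprime {ζ : QA} (hζ : IsPrimitiveRoot ζ p)
    (hno : ∀ σ ∈ A.inertiaSubgroupIn ℚ, σ ^ p ∈ fixer (Tors W p) → σ ∈ fixer (Tors W p)) :
    WildData hA ζ (A.inertiaSubgroupIn ℚ ⊓ fixer (Tors W p)) 1 := by
  classical
  set I := A.inertiaSubgroupIn ℚ
  set G := I ⊓ fixer (Tors W p) with hG
  obtain ⟨L, hL, hfix⟩ := exists_level hW0 (p := p)
  haveI := hL
  haveI := Mazur.isGalois_QQb
  haveI : Finite (GG ⧸ L.fixingSubgroup) :=
    Subgroup.quotient_finite_of_isOpen _ L.fixingSubgroup_isOpen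
  haveI : (fixer (Tors W p)).FiniteIndex :=
    haveI := Subgroup.finiteIndex_of_finite_quotient (H := L.fixingSubgroup)
    Subgroup.finiteIndex_of_le hfix
  set N := (fixer (Tors W p)).subgroupOf I with hN
  haveI : N.Normal := ⟨fun n hn g x => by
    have hn' : ∀ y : Tors W p, (n : GG) • y = y := hn
    show ((g : GG) * (n : GG) * (g : GG)⁻¹) • x = x
    rw [mul_smul, mul_smul, hn', smul_inv_smul]⟩
  letI : Fintype (I ⧸ N) := Fintype.ofFinite _
  have hcard : ¬ p ∣ Nat.card (I ⧸ N) := by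
    intro hd
    obtain ⟨q, hq⟩ := exists_prime_orderOf_dvd_card' p hd
    obtain ⟨s, rfl⟩ := QuotientGroup.mk_surjective q
    have h1 : s ^ p ∈ N := by
      rw [← QuotientGroup.eq_one_iff, QuotientGroup.mk_pow]
      rw [← hq]
      exact pow_orderOf_eq_one _
    have h2 : (QuotientGroup.mk s : I ⧸ N) = 1 :=
      (QuotientGroup.eq_one_iff _).2 (hno _ s.2 h1)
    rw [h2, orderOf_one] at hq
    exact hp.out.ne_one hq.symm
  have hval : ∀ a : QA, a ≠ 0 → (∀ τ ∈ G, τ a = a) →
      ∃ z : ℤ, (Nat.card (I ⧸ N) : ℚ) * (ratVal hA).v a = z := by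
    intro a ha hGa
    let f : I ⧸ N → QA := Quotient.lift (fun s : I => (s : GG) a) fun s t hst => by
      have h : s⁻¹ * t ∈ N := QuotientGroup.leftRel_apply.1 hst
      have h' := congrArg (s : GG) (hGa _ ⟨(s⁻¹ * t).2, h⟩)
      rw [← AlgEquiv.mul_apply] at h'
      simpa using h'.symm
    have hf : ∀ q, f q ≠ 0 ∧ (ratVal hA).v (f q) = (ratVal hA).v a := by
      intro q
      obtain ⟨s, rfl⟩ := QuotientGroup.mk_surjective q
      exact ⟨(_root_.map_ne_zero _).2 ha, v_apply hA (Places.inertia_le_decomposition A s.2) ha⟩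
    obtain ⟨z, hz⟩ := exists_v_eq_intCast hA
      (Finset.prod_ne_zero_iff.2 fun q _ => (hf q).1) fun τ hτ => by
      rw [map_prod]
      refine Fintype.prod_equiv (Equiv.mulLeft (QuotientGroup.mk (⟨τ, hτ⟩ : I) : I ⧸ N)) _ _
        fun q => ?_
      obtain ⟨s, rfl⟩ := QuotientGroup.mk_surjective q
      rfl
    refine ⟨z, ?_⟩
    rw [← hz, (ratVal hA).v_prod _ _ fun q _ => (hf q).1,
      Finset.sum_congr rfl fun q _ => (hf q).2, Finset.sum_const, nsmul_eq_mul,
      Finset.card_univ, Nat.card_eq_fintype_card]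
  have hpos : 0 < Nat.card (I ⧸ N) := Nat.card_pos
  exact
    { le := inf_le_left
      normal := fun σ hσ τ hτ => ⟨I.mul_mem (I.mul_mem (I.inv_mem hσ) hτ.1) hσ, fun x => by
        rw [mul_smul, mul_smul, hτ.2, inv_smul_smul]⟩
      fix_root := fun τ hτ => fix_zeta_of_omega hζ (omega_eq_one hW0 hτ.2)
      val_mem := ⟨_, hpos, hval⟩
      mem := one_mem _
      fix_gen := rfl
      move := fun a _ _ => Or.inl (by rw [AlgEquiv.one_apply, sub_self])
      move_strict := fun a ha h _ => by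
        obtain ⟨z, hz⟩ := hval a ha h
        exact ⟨_, z, hcard, hz⟩
      move_unit := fun a _ _ _ => Or.inl (by rw [AlgEquiv.one_apply, sub_self]) }

end FLTAgent.ModLift.Wild
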