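import Mathlib

/-!
# A unipotent element of a plane over the prime field

An element of order `p` on a plane fixes a line and translates along it, and whoever makes a
unipotent commutator with it preserves that line.
-/

set_option autoImplicit false
set_option linter.style.haveILetI false
set_option linter.unusedSectionVars false

noncomputable section

namespace FLTAgent.ModLift.Wild

variable {p : ℕ} [hp : Fact p.Prime] {V : Type*} [AddCommGroup V] [Module (ZMod p) V]
  {H : Type*} [Group H] [DistribMulAction H V] [SMulCommClass H (ZMod p) V]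

include hp in
/-- An element of `p`-power order on a space over the prime field fixes a nonzero vector. -/
theorem exists_fixed_of_pow [Nontrivial V] {τ : H} {k : ℕ} (h : ∀ x : V, τ ^ p ^ k • x = x) :
    ∃ K : V, K ≠ 0 ∧ τ • K = K := by
  by_contra hc
  push Not at hc
  set ρ : H →* Module.End (ZMod p) V := DistribMulAction.toModuleEnd (ZMod p) V
  have hf : Function.Injective (ρ τ - 1 : Module.End (ZMod p) V) := by
    refine (injective_iff_map_eq_zero _).2 fun x hx => ?_
    by_contra hx0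
    exact hc x hx0 (sub_eq_zero.1 hx)
  haveI : CharP (Module.End (ZMod p) V) p :=
    charP_of_injective_algebraMap (algebraMap (ZMod p) (Module.End (ZMod p) V)).injective p
  have h0 : (ρ τ - 1 : Module.End (ZMod p) V) ^ p ^ k = 0 := by
    rw [sub_pow_char_pow_of_commute p k (Commute.one_right _), one_pow, ← map_pow, sub_eq_zero]
    exact LinearMap.ext h
  obtain ⟨x, hx⟩ := exists_ne (0 : V)
  refine hx ((hf.iterate (p ^ k)) ?_)
  rw [← Module.End.coe_pow, h0]
  rfl

variable (hV : Module.finrank (ZMod p) V = 2)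

include hV in
/-- A vector off a line completes it to a basis. -/
theorem exists_coords {R T : V} (hR : R ≠ 0) (hT : ∀ a : ZMod p, a • R ≠ T) (x : V) :
    ∃ a b : ZMod p, x = a • R + b • T := by
  have hli : LinearIndependent (ZMod p) ![R, T] := (LinearIndependent.pair_iff' hR).2 hT
  have hsp := hli.span_eq_top_of_card_eq_finrank (by simp [hV])
  have hx : x ∈ Submodule.span (ZMod p) (Set.range ![R, T]) := hsp ▸ Submodule.mem_top
  rw [Matrix.range_cons, Matrix.range_cons, Matrix.range_empty, Set.union_empty,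
    Set.singleton_union, Submodule.mem_span_pair] at hx
  obtain ⟨a, b, h⟩ := hx
  exact ⟨a, b, h.symm⟩

include hp in
theorem coords_eq_zero {R T : V} (hR : R ≠ 0) (hT : ∀ a : ZMod p, a • R ≠ T)
    {a b : ZMod p} (h : a • R + b • T = 0) : a = 0 ∧ b = 0 :=
  LinearIndependent.pair_iff.1 ((LinearIndependent.pair_iff' hR).2 hT) a b h

include hV in
/-- An element of order `p` translates along a line it fixes. -/
theorem exists_unipotent {σ : H} (hσ : ∃ x : V, σ • x ≠ x) (hσp : ∀ x : V, σ ^ p • x = x) :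
    ∃ R T : V, R ≠ 0 ∧ (∀ a : ZMod p, a • R ≠ T) ∧ σ • R = R ∧ σ • T = T + R := by
  obtain ⟨x₀, hx₀⟩ := hσ
  haveI : Nontrivial V := ⟨σ • x₀, x₀, hx₀⟩
  obtain ⟨K, hK, hσK⟩ := exists_fixed_of_pow (p := p) (k := 1) (τ := σ) (V := V)
    (by simpa using hσp)
  have hT : ∀ a : ZMod p, a • K ≠ x₀ := fun a ha => hx₀ (by rw [← ha, smul_comm σ a K, hσK])
  obtain ⟨a, b, hab⟩ := exists_coords hV hK hT (σ • x₀ - x₀)
  have hb : b = 0 := by
    by_contra hb
    have hpow : ∀ n : ℕ, ∃ c : ZMod p, σ ^ n • x₀ = c • K + (1 + b) ^ n • x₀ := by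
      intro n
      induction n with
      | zero => exact ⟨0, by simp⟩
      | succ n ih =>
        obtain ⟨c, hc⟩ := ih
        refine ⟨c + (1 + b) ^ n * a, ?_⟩
        rw [pow_succ', mul_smul, hc, smul_add, smul_comm σ c K, hσK, smul_comm σ _ x₀,
          sub_eq_iff_eq_add.1 hab]
        module
    obtain ⟨c, hc⟩ := hpow p
    rw [hσp x₀] at hc
    have h2 := coords_eq_zero hK hT (a := c) (b := (1 + b) ^ p - 1) (by
      rw [sub_smul, one_smul, ← add_sub_assoc, ← hc, sub_self])
    rw [ZMod.pow_card] at h2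
    exact hb (by linear_combination h2.2)
  rw [hb, zero_smul, add_zero] at hab
  have ha : a ≠ 0 := fun h => hx₀ (sub_eq_zero.1 (by rw [hab, h, zero_smul]))
  refine ⟨a • K, x₀, smul_ne_zero ha hK, fun c h => hT (c * a) (by rwa [mul_smul]),
    by rw [smul_comm σ a K, hσK], by rw [← hab, add_sub_cancel]⟩

include hV in
/-- Whoever makes a unipotent commutator with the translation preserves its line. -/
theorem stable_line {σ τ : H} {R T : V} (hR : R ≠ 0) (hT : ∀ a : ZMod p, a • R ≠ T)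
    (hσR : σ • R = R) (hσT : σ • T = T + R) {k : ℕ}
    (hc : ∀ x : V, (τ * σ * τ⁻¹ * σ⁻¹) ^ p ^ k • x = x) : ∃ a : ZMod p, τ • R = a • R := by
  by_contra hne
  push Not at hne
  haveI : Nontrivial V := ⟨R, 0, hR⟩
  have htr : ∀ x : V, ∃ c : ZMod p, σ • x = x + c • R ∧ (c = 0 → ∃ a : ZMod p, x = a • R) := by
    intro x
    obtain ⟨a, b, rfl⟩ := exists_coords hV hR hT x
    refine ⟨b, ?_, fun h => ⟨a, by rw [h, zero_smul, add_zero]⟩⟩
    rw [smul_add, smul_comm σ a R, smul_comm σ b T, hσR, hσT, smul_add, add_assoc]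
  obtain ⟨v, hv, hv0⟩ := htr (τ • R)
  have hvne : v ≠ 0 := fun h => let ⟨a, ha⟩ := hv0 h; hne a ha
  obtain ⟨w, hw, hw0⟩ := htr (τ⁻¹ • R)
  have hwne : w ≠ 0 := fun h => by
    obtain ⟨a, ha⟩ := hw0 h
    rw [inv_smul_eq_iff, smul_comm τ a R] at ha
    rcases eq_or_ne a 0 with rfl | ha0
    · exact hR (ha.trans (zero_smul _ _))
    · exact hne a⁻¹ (by conv_rhs => rw [ha, smul_smul, inv_mul_cancel₀ ha0, one_smul])
  have hT' : ∀ a : ZMod p, a • R ≠ τ • R := fun a h => hne a h.symm
  obtain ⟨K, hK, hcK⟩ := exists_fixed_of_pow (p := p) hc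
  have hcK' : τ • σ • τ⁻¹ • (σ⁻¹ • K) = σ • (σ⁻¹ • K) := by
    rw [smul_inv_smul, ← mul_smul, ← mul_smul, ← mul_smul]
    exact hcK
  obtain ⟨x, y, hxy⟩ := exists_coords hV hR hT' (σ⁻¹ • K)
  have h1 : τ • σ • τ⁻¹ • (σ⁻¹ • K) = σ⁻¹ • K + (x * w) • (τ • R) := by
    rw [hxy]
    simp only [smul_add, smul_comm τ⁻¹ x, smul_comm τ⁻¹ y, inv_smul_smul, smul_comm σ x,
      smul_comm σ y, hw, hσR, smul_comm τ x, smul_comm τ y, smul_inv_smul, smul_comm τ w,
      mul_smul]
    abel
  have h2 : σ • (σ⁻¹ • K) = σ⁻¹ • K + (y * v) • R := by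
    rw [hxy, smul_add, smul_comm σ x, smul_comm σ y, hσR, hv, mul_smul, smul_add]
    abel
  rw [h1, h2, add_right_inj] at hcK'
  obtain ⟨hy, hx⟩ := coords_eq_zero hR hT' (a := -(y * v)) (b := x * w) (by
    rw [hcK', neg_smul, neg_add_cancel])
  rw [neg_eq_zero, mul_eq_zero, or_iff_left hvne] at hy
  rw [mul_eq_zero, or_iff_left hwne] at hx
  rw [hx, hy, zero_smul, zero_smul, add_zero, inv_smul_eq_iff, smul_zero] at hxy
  exact hK hxy

end FLTAgent.ModLift.Wild
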