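import Fermat.Agent.ModLift.WPoint.Node
import Fermat.Agent.ModLift.WPoint.FlatCurve
import Fermat.Agent.LocalEC.FreyAtP
import Fermat.Agent.MazurPrinciple.FreyNode
import Fermat.Agent.MazurPrinciple.WildField

/-!
# The size of the torsion in the kernel of reduction

The abscissae of the `p`-torsion outside the valuation ring multiply to the size of `1 / p`, as
there is a two-torsion point of nonsingular reduction; so each is at most `p ^ (-2 / (p - 1))`.
-/

set_option autoImplicit false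
set_option linter.style.haveILetI false
set_option linter.unusedSectionVars false

noncomputable section

open scoped Classical WeierstrassCurve.Affine
open WeierstrassCurve WeierstrassCurve.Affine IsLocalRing

namespace FLTAgent.ModLift.Wild

open FLTAgent.LocalEC FLTAgent.LevelMatch FLTAgent.FrobTrace FLTAgent.MazurPrinciple

local notation "QA" => AlgebraicClosure ℚ
local notation "GG" => (AlgebraicClosure ℚ ≃ₐ[ℚ] AlgebraicClosure ℚ)

variable {W : WeierstrassCurve ℤ} (hW0 : W.Δ ≠ 0) {A : ValuationSubring QA}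
  {p : ℕ} [hp : Fact p.Prime] (hp2 : p ≠ 2) (hA : A.LiesOverPrime p)

include hW0 in
theorem isElliptic_bar : (barCurve W).IsElliptic := ⟨by
  rw [isUnit_iff_ne_zero, Δ_barCurve]
  exact_mod_cast hW0⟩

include hW0 hp2 hA in
/-- At a good place every two-torsion point is integral of nonsingular reduction; at a node the
one away from the node is. -/
theorem exists_two_torsion (hss : W.IsSemistableModel) :
    ∃ (x y : QA) (hx : x ∈ A) (hy : y ∈ A), (barCurve W).Nonsingular x y ∧
      psi (barCurve W) x y = 0 ∧ (intCoeff_barCurve W A).redCurve.Nonsingular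
        (residue A ⟨x, hx⟩) (residue A ⟨y, hy⟩) := by
  haveI := isElliptic_bar hW0
  set hV := intCoeff_barCurve W A
  have h2 : A.valuation (2 : QA) = 1 := by
    simpa using val_natCast_eq_one hA hp.out (n := 2) fun h =>
      hp2 ((Nat.prime_dvd_prime_iff_eq hp.out Nat.prime_two).mp h)
  have fin : ∀ {x y : QA} (h : (barCurve W).Nonsingular x y), psi (barCurve W) x y = 0 →
      InE0 hV (Point.some x y h) → ∃ (x y : QA) (hx : x ∈ A) (hy : y ∈ A),
        (barCurve W).Nonsingular x y ∧ psi (barCurve W) x y = 0 ∧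
        hV.redCurve.Nonsingular (residue A ⟨x, hx⟩) (residue A ⟨y, hy⟩) := by
    intro x y h hψ h0
    have hx : x ∈ A := by
      by_contra hx
      exact Point.some_ne_zero h (eq_zero_of_inE1_of_nsmul hV (inE1_some_iff.mpr hx)
        (k := 2) (by simpa using h2) (two_nsmul_some_of_psi_eq_zero h hψ))
    obtain ⟨hx', hy', hns⟩ := ((inE0_some_iff (hW := hV) (h := h)).mp h0).resolve_left
      fun h => h hx
    exact ⟨x, y, hx', hy', h, hψ, hns⟩
  by_cases hgood : (p : ℤ) ∣ W.Δ
  · obtain ⟨S⟩ := exists_semiNode hW0 hp.out hgood (hss p hp.out hgood) hA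
    set M := S.model
    obtain ⟨z, hz, hz1⟩ : ∃ z : QA, 4 * z ^ 2 + M.b₂ * z + 4 * M.a₄ = 0 ∧
        1 ≤ A.valuation z := by
      obtain ⟨d, hd⟩ := IsAlgClosed.exists_eq_mul_self (M.b₂ ^ 2 - 64 * M.a₄)
      have hsum : (-M.b₂ + d) / 8 + (-M.b₂ - d) / 8 = -M.b₂ / 4 := by ring
      have hroot : ∀ e : QA, e ^ 2 = d ^ 2 →
          4 * ((-M.b₂ + e) / 8) ^ 2 + M.b₂ * ((-M.b₂ + e) / 8) + 4 * M.a₄ = 0 := fun e he => by
        linear_combination (1 / 16 : QA) * (he + (sq d).trans hd.symm)
      by_cases h1 : 1 ≤ A.valuation ((-M.b₂ + d) / 8)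
      · exact ⟨_, hroot d rfl, h1⟩
      refine ⟨(-M.b₂ + -d) / 8, hroot (-d) (neg_sq d), le_of_not_gt fun h3 => ?_⟩
      have h4 := A.valuation.map_add_lt (not_le.1 h1) h3
      rw [← sub_eq_add_neg, hsum, map_div₀, Valuation.map_neg, S.node.b₂_unit,
        show (4 : QA) = 2 * 2 by norm_num, map_mul, h2, one_mul, div_one] at h4
      exact lt_irrefl _ h4
    set y := -(M.a₁ * z) / 2
    have hψ : psi M z y = 0 := by rw [S.node.psi_eq]; simp only [y]; ring
    have he : M.Equation z y := by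
      rw [equation_iff, S.node.a₃_eq, S.node.a₆_eq]
      simp only [y]
      simp only [b₂] at hz
      linear_combination (-z / 4) * hz
    haveI := node_isElliptic S.node
    have hns : M.Nonsingular z y := equation_iff_nonsingular.mp he
    refine fin (S.C.nonsingular_map hns) (by rw [S.C.psi_map, hψ, mul_zero]) ?_
    rw [← S.C.pointMap_some hns, S.inE0_pointMap]
    by_contra h0
    have := S.node.not_inE0_iff.mp h0
    rw [xVal_some] at this
    exact not_lt.mpr hz1 this
  · obtain ⟨z, hz⟩ := IsAlgClosed.exists_root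
      (Polynomial.C 4 * Polynomial.X ^ 3 + Polynomial.C (barCurve W).b₂ * Polynomial.X ^ 2 +
        Polynomial.C (2 * (barCurve W).b₄) * Polynomial.X + Polynomial.C (barCurve W).b₆)
      (by rw [Polynomial.degree_cubic (by norm_num : (4 : QA) ≠ 0)]; decide)
    simp only [Polynomial.IsRoot, Polynomial.eval_add, Polynomial.eval_mul, Polynomial.eval_C,
      Polynomial.eval_pow, Polynomial.eval_X] at hz
    set y := -((barCurve W).a₁ * z + (barCurve W).a₃) / 2
    have hψ : psi (barCurve W) z y = 0 := by rw [psi]; simp only [y]; ring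
    have he : (barCurve W).Equation z y := by
      rw [equation_iff]
      simp only [y]
      simp only [b₂, b₄, b₆] at hz
      linear_combination (-1 / 4 : QA) * hz
    exact fin (equation_iff_nonsingular.mp he) hψ
      (inE0_of_val_disc hV (by rw [Δ_barCurve]; exact val_intCast_eq_one hA hp.out hgood) _)

include hW0 hp2 hA in
/-- The abscissae of the nonzero `p`-torsion outside `A` multiply to the size of `1/p`. -/
theorem torsion_product (hss : W.IsSemistableModel) :
    ∃ X : Finset QA,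
      (∀ r, r ∈ X ↔ r ∉ A ∧ ∃ s h, p • Point.some (W' := barCurve W) r s h = 0) ∧
      A.valuation (p : QA) * ∏ r ∈ X, A.valuation r = 1 := by
  haveI := isElliptic_bar hW0
  have hodd : Odd p := hp.out.odd_of_ne_two hp2
  obtain ⟨x₀, y₀, hx₀, hy₀, h₀, hψ, hns⟩ := exists_two_torsion hW0 hp2 hA hss
  obtain ⟨Am, B, hmul⟩ := FLTAgent.Torsion.exists_isMulPoly (W := barCurve W) p
  refine ⟨_, fun r => ?_,
    val_p_mul_prod_eq_one (intCoeff_barCurve W A) hodd hmul hx₀ hy₀ h₀ hψ hns⟩
  rw [Finset.mem_filter, Multiset.mem_toFinset,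
    Polynomial.mem_roots (mulPoly_den_natDegree hmul hp.out.ne_zero).1]
  constructor
  · rintro ⟨hr, hrA⟩
    obtain ⟨s, hs⟩ := FLTAgent.Torsion.exists_point_of_X (W := barCurve W) r
    exact ⟨hrA, s, hs, (hmul.nsmul_eq_zero_iff hs).mpr hr⟩
  · rintro ⟨hrA, s, hs, h⟩
    exact ⟨(hmul.nsmul_eq_zero_iff hs).mp h, hrA⟩

include hp2 hA in
/-- A point of the kernel of reduction has the abscissae of `(p - 1) / 2` multiples of the same
size in the set. -/
theorem exists_multiples {X : Finset QA}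
    (hX : ∀ r, r ∈ X ↔ r ∉ A ∧ ∃ s h, p • Point.some (W' := barCurve W) r s h = 0)
    {x₀ y₀ : QA} (h₀ : (barCurve W).Nonsingular x₀ y₀) (hx₀ : x₀ ∉ A)
    (hT : p • Point.some x₀ y₀ h₀ = 0) :
    ∃ T ⊆ X, T.card = (p - 1) / 2 ∧ ∀ r ∈ T, A.valuation r = A.valuation x₀ := by
  have hW := intCoeff_barCurve W A
  set R := Point.some x₀ y₀ h₀ with hR
  have hv1 : ∀ {k : ℕ}, ¬p ∣ k → A.valuation (k : QA) = 1 := val_natCast_eq_one hA hp.out
  have hhalf : ∀ k ∈ Finset.Icc 1 ((p - 1) / 2), ¬p ∣ k := fun k hk hd => by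
    rw [Finset.mem_Icc] at hk
    have := Nat.le_of_dvd hk.1 hd
    omega
  let g : ℕ → QA := fun k => coordX (k • R)
  have hg : ∀ k, ¬p ∣ k → ∃ y h, k • R = Point.some (g k) y h ∧ g k ∉ A ∧
      A.valuation (g k) = A.valuation x₀ := by
    intro k hk
    obtain ⟨x', y', h', e, hx', hv', -⟩ := e1_nsmul hW (h := h₀) hx₀ (hv1 hk)
    have hgk : g k = x' := by simp only [g, hR, e]; rfl
    exact ⟨y', hgk ▸ h', by rw [e]; congr 1; exact hgk.symm, hgk ▸ hx', hgk ▸ hv'⟩
  have hinj : Set.InjOn g (Finset.Icc 1 ((p - 1) / 2)) := by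
    intro a ha b hb e
    rw [Finset.mem_coe] at ha hb
    obtain ⟨ya, hya, ea, -⟩ := hg a (hhalf a ha)
    obtain ⟨yb, hyb, eb, -⟩ := hg b (hhalf b hb)
    rw [Finset.mem_Icc] at ha hb
    have key : ∀ n : ℕ, 0 < n → n < p → n • R ≠ 0 := fun n h1 h2 h => by
      refine Point.some_ne_zero h₀ ?_
      exact eq_zero_of_inE1_of_nsmul hW (inE1_some_iff.mpr hx₀)
        (hv1 fun hd => absurd (Nat.le_of_dvd h1 hd) (not_le.mpr h2)) h
    rcases (Point.X_eq_iff (h₁ := hya) (h₂ := hyb)).mp e with e' | e'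
    · rw [← ea, ← eb] at e'
      by_contra hne
      rcases Nat.lt_or_gt_of_ne hne with hlt | hlt
      · refine key (b - a) (by omega) (by omega) ?_
        rw [sub_nsmul _ hlt.le, e', add_neg_cancel]
      · refine key (a - b) (by omega) (by omega) ?_
        rw [sub_nsmul _ hlt.le, e', add_neg_cancel]
    · rw [← ea, ← eb] at e'
      exact absurd (by rw [add_nsmul, e', neg_add_cancel]) (key (a + b) (by omega) (by omega))
  refine ⟨(Finset.Icc 1 ((p - 1) / 2)).image g, fun r hr => ?_, ?_, fun r hr => ?_⟩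
  · obtain ⟨k, hk, rfl⟩ := Finset.mem_image.1 hr
    obtain ⟨y, h, e, hgA, -⟩ := hg k (hhalf k hk)
    exact (hX _).2 ⟨hgA, y, h, by rw [← e, smul_comm, hT, nsmul_zero]⟩
  · rw [Finset.card_image_of_injOn hinj, Nat.card_Icc, Nat.add_sub_cancel]
  · obtain ⟨k, hk, rfl⟩ := Finset.mem_image.1 hr
    exact (hg k (hhalf k hk)).choose_spec.choose_spec.2.2

include hW0 hp2 hA in
/-- The abscissa of a point of the kernel of reduction is at most `p ^ (-2/(p-1))`. -/
theorem abscissa_bound (hss : W.IsSemistableModel) {x₀ y₀ : QA}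
    (h₀ : (barCurve W).Nonsingular x₀ y₀) (hx₀ : x₀ ∉ A)
    (hT : p • Point.some x₀ y₀ h₀ = 0) :
    A.valuation (p : QA) * A.valuation x₀ ^ ((p - 1) / 2) ≤ 1 := by
  obtain ⟨X, hX, hprod⟩ := torsion_product hW0 hp2 hA hss
  obtain ⟨T, hT', hc, hv⟩ := exists_multiples hp2 hA hX h₀ hx₀ hT
  rw [← hprod, ← Finset.prod_sdiff hT', Finset.prod_congr rfl hv, Finset.prod_const, hc]
  exact mul_le_mul_right (le_mul_of_one_le_left' (Finset.one_le_prod fun r hr =>
    (not_mem_iff_one_lt_val.mp ((hX r).1 (Finset.mem_sdiff.1 hr).1).1).le)) _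

end FLTAgent.ModLift.Wild
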